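/-
JT3 / (F2) DESC part (C), helper12: `A ∩ L1` is a discrete valuation ring.

* `dsc_exists_eq_valuationSubring`, `dsc_isDVR_of_dedekind` : a proper valuation subring of the
  fraction field of a Dedekind domain `R` containing `R` is the `v`-adic valuation subring of a
  height one prime `v`, hence a DVR.
* `dsc_isDVR_numberField`, `dsc_isDVR_comap_numberField` : number field form.
* `dsc_isDVR_of_finite`, `dsc_isDVR_comap_of_finite` : finite separable extensions of the fraction
  field of a DVR (for towers `K ⊆ K'` inside a big field `L` with a valuation subring `A`).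
-/
import Mathlib
import Fermat.Prelude.Def_FLTPrelim_Ramification

set_option autoImplicit false
set_option linter.unusedSectionVars false

namespace Fermat.Agent.JT3

open IsDedekindDomain

section Dedekind

variable (R K' : Type*) [CommRing R] [IsDedekindDomain R] [Field K'] [Algebra R K']
  [IsFractionRing R K']

/-- a proper valuation subring of the fraction field of a Dedekind domain `R` which contains `R`
is the localisation of `R` at a nonzero prime. -/
theorem dsc_exists_eq_valuationSubring (V' : ValuationSubring K')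
    (hR : ∀ r : R, algebraMap R K' r ∈ V') (hV : V' ≠ ⊤) :
    ∃ v : HeightOneSpectrum R, (v.valuation K').valuationSubring = V' := by
  -- the centre of `V'` on `R`
  let φ : R →+* V' := (algebraMap R K').codRestrict V'.toSubring hR
  have hφ : ∀ r, ((φ r : V') : K') = algebraMap R K' r := fun _ => rfl
  set 𝔭 : Ideal R := (IsLocalRing.maximalIdeal V').comap φ with h𝔭
  have hprime : 𝔭.IsPrime := Ideal.comap_isPrime φ _
  have hmem : ∀ r : R, r ∈ 𝔭 ↔ algebraMap R K' r ∈ V'.nonunits := by
    intro r
    rw [h𝔭, Ideal.mem_comap, ← ValuationSubring.coe_mem_nonunits_iff, hφ]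
  have hne : 𝔭 ≠ ⊥ := by
    have : ∃ x : K', x ∉ V' := by
      by_contra hcon
      exact hV (eq_top_iff.2 fun x _ => not_not.1 (not_exists.1 hcon x))
    obtain ⟨x, hx⟩ := this
    obtain ⟨a, b, hb, rfl⟩ := IsFractionRing.div_surjective (A := R) x
    have hb0 : b ≠ 0 := nonZeroDivisors.ne_zero hb
    have hb0' : algebraMap R K' b ≠ 0 := by
      rwa [Ne, FaithfulSMul.algebraMap_eq_zero_iff]
    intro hbot
    have hbmem : b ∈ 𝔭 := by
      rw [hmem, ValuationSubring.mem_nonunits_iff_or]
      exact Or.inr (fun h => hx (by rw [div_eq_mul_inv]; exact V'.mul_mem _ _ (hR a) h))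
    rw [hbot] at hbmem
    exact hb0 hbmem
  let v : HeightOneSpectrum R := ⟨𝔭, hprime, hne⟩
  refine ⟨v, ?_⟩
  rw [← HeightOneSpectrum.valuationSubringAtPrime_eq_valuationSubring]
  refine ValuationSubring.eq_of_le_of_ne_top _ ?_ hV
  rintro x ⟨a, s, hs, rfl⟩
  have hs' : algebraMap R K' s ∉ V'.nonunits := fun h => hs ((hmem s).2 h)
  rw [ValuationSubring.mem_nonunits_iff_or, not_or, not_not] at hs'
  exact V'.mul_mem _ _ (hR a) hs'.2

/-- **(C2')** a proper valuation subring of the fraction field of a Dedekind domain `R` which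
contains `R` is a discrete valuation ring. -/
theorem dsc_isDVR_of_dedekind (V' : ValuationSubring K')
    (hR : ∀ r : R, algebraMap R K' r ∈ V') (hV : V' ≠ ⊤) : IsDiscreteValuationRing V' := by
  obtain ⟨v, rfl⟩ := dsc_exists_eq_valuationSubring R K' V' hR hV
  infer_instance

end Dedekind

section Integral

variable {K : Type*} [Field K]

/-- valuation subrings are integrally closed: an element integral over `V` lies in `V`. -/
theorem dsc_mem_of_isIntegral (V : ValuationSubring K) {x : K} (hx : IsIntegral V x) : x ∈ V := by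
  obtain ⟨y, rfl⟩ := (IsIntegrallyClosed.isIntegral_iff (R := V) (K := K)).1 hx
  exact y.2

/-- an element integral over a ring mapping into `V` lies in `V`. -/
theorem dsc_mem_of_isIntegral_of_le (V : ValuationSubring K) {O : Type*} [CommRing O] [Algebra O K]
    (hO : ∀ o : O, algebraMap O K o ∈ V) {x : K} (hx : IsIntegral O x) : x ∈ V := by
  apply dsc_mem_of_isIntegral V
  obtain ⟨p, hp, hpx⟩ := hx
  let φ : O →+* V := (algebraMap O K).codRestrict V.toSubring hO
  refine ⟨p.map φ, hp.map φ, ?_⟩
  rw [Polynomial.eval₂_map]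
  exact hpx

theorem dsc_ne_top_of_mem_nonunits (V : ValuationSubring K) {x : K} (hx : x ∈ V.nonunits)
    (hx0 : x ≠ 0) : V ≠ ⊤ := by
  rintro rfl
  rw [ValuationSubring.mem_nonunits_iff_or] at hx
  rcases hx with h | h
  · exact hx0 h
  · exact h trivial

end Integral

section NumberField

/-- **(C, number field form)** a proper valuation subring of a number field is a DVR. -/
theorem dsc_isDVR_numberField (L1 : Type*) [Field L1] [NumberField L1] (V : ValuationSubring L1)
    (hV : V ≠ ⊤) : IsDiscreteValuationRing V :=
  dsc_isDVR_of_dedekind (NumberField.RingOfIntegers L1) L1 V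
    (fun r => dsc_mem_of_isIntegral_of_le V (O := ℤ) (fun n => by
      rw [eq_intCast]; exact intCast_mem V n) r.2) hV

end NumberField

section Finite

/-- **(C2)** `K'/K` finite separable, `O` a Dedekind domain (e.g. a DVR) with fraction field `K`:
a proper valuation subring of `K'` containing `O` is a DVR. -/
theorem dsc_isDVR_of_finite (O K K' : Type*) [CommRing O] [IsDedekindDomain O] [Field K]
    [Field K'] [Algebra O K] [IsFractionRing O K] [Algebra K K'] [Algebra O K']
    [IsScalarTower O K K'] [FiniteDimensional K K'] [Algebra.IsSeparable K K']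
    (V' : ValuationSubring K') (hO : ∀ o : O, algebraMap O K' o ∈ V') (hV : V' ≠ ⊤) :
    IsDiscreteValuationRing V' := by
  have _ : IsDedekindDomain (integralClosure O K') := integralClosure.isDedekindDomain O K K'
  have _ : IsFractionRing (integralClosure O K') K' :=
    integralClosure.isFractionRing_of_finite_extension K K'
  exact dsc_isDVR_of_dedekind (integralClosure O K') K' V'
    (fun r => dsc_mem_of_isIntegral_of_le V' hO r.2) hV

variable {L : Type*} [Field L] (A : ValuationSubring L)

theorem dsc_mem_comap_nonunits_iff (K : Type*) [Field K] [Algebra K L] (x : K) :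
    x ∈ (A.comap (algebraMap K L)).nonunits ↔ algebraMap K L x ∈ A.nonunits := by
  rw [ValuationSubring.mem_nonunits_iff_or, ValuationSubring.mem_nonunits_iff_or,
    ValuationSubring.mem_comap, map_inv₀, map_eq_zero]

/-- **(C2, packaged)** inside a big field `L` with a valuation subring `A`: if `A ∩ K` is a DVR and
`K'/K` is finite separable, then `A ∩ K'` is a DVR. -/
theorem dsc_isDVR_comap_of_finite (K K' : Type*) [Field K] [Field K'] [Algebra K K'] [Algebra K L]
    [Algebra K' L] [IsScalarTower K K' L] [FiniteDimensional K K'] [Algebra.IsSeparable K K']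
    (hK : IsDiscreteValuationRing ↥(A.comap (algebraMap K L))) :
    IsDiscreteValuationRing ↥(A.comap (algebraMap K' L)) := by
  let O := A.comap (algebraMap K L)
  let _ : Algebra O K' := ((algebraMap K K').comp O.subtype).toAlgebra
  have _ : IsScalarTower O K K' := IsScalarTower.of_algebraMap_eq (fun _ => rfl)
  have hO : ∀ o : O, algebraMap O K' o ∈ A.comap (algebraMap K' L) := by
    intro o
    rw [ValuationSubring.mem_comap]
    show algebraMap K' L (algebraMap K K' (o : K)) ∈ A
    rw [← IsScalarTower.algebraMap_apply]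
    exact o.2
  -- a uniformiser of `O` witnesses that `A ∩ K'` is proper
  obtain ⟨ϖ, hϖ⟩ := IsDiscreteValuationRing.exists_irreducible O
  have hϖ0 : (ϖ : K) ≠ 0 := fun h => hϖ.ne_zero (Subtype.ext h)
  have hϖ1 : (ϖ : K) ∈ O.nonunits :=
    ValuationSubring.coe_mem_nonunits_iff.2 ((IsLocalRing.mem_maximalIdeal _).2 hϖ.not_isUnit)
  have hV : A.comap (algebraMap K' L) ≠ ⊤ := by
    apply dsc_ne_top_of_mem_nonunits _ (x := algebraMap K K' (ϖ : K))
    · rw [dsc_mem_comap_nonunits_iff, ← IsScalarTower.algebraMap_apply,
        ← dsc_mem_comap_nonunits_iff]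
      exact hϖ1
    · rwa [Ne, map_eq_zero]
  exact dsc_isDVR_of_finite O K K' _ hO hV

end Finite

section Qbar

variable {L : Type*} [Field L] [CharZero L] (A : ValuationSubring L)

/-- **(C, number field form, packaged)** `A ∩ L1` is a DVR for a number field `L1 → L` when `A`
lies over a prime `ℓ`. -/
theorem dsc_isDVR_comap_numberField (ℓ : ℕ) (hℓ : A.LiesOverPrime ℓ) (hℓ0 : ℓ ≠ 0)
    (L1 : Type*) [Field L1] [NumberField L1] [Algebra L1 L] :
    IsDiscreteValuationRing ↥(A.comap (algebraMap L1 L)) := by
  apply dsc_isDVR_numberField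
  apply dsc_ne_top_of_mem_nonunits _ (x := (ℓ : L1))
  · rw [dsc_mem_comap_nonunits_iff, map_natCast]
    exact hℓ
  · exact_mod_cast hℓ0

end Qbar

end Fermat.Agent.JT3
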