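/-
JT3 / (F2) DESC, helper12.  Constant field extensions are unramified, in the prelude's
`Place` language.

`K0 ⊆ Kbar` separable algebraic, `F0 ⊆ Fbar` with `Fbar = F0 · Kbar` (every element of `Fbar`
lies in `F0(θ)` for some constant `θ : Kbar`).  Then every place `Q` of `F0 / K0` extends to a
place `P` of `Fbar / Kbar` with `P.ord x = Q.ord x` for all `x : F0` (ramification index one).
-/
import Mathlib
import Fermat.Prelude.Def_AlgebraicCurve_DivisorClassGroup
import Fermat.Agent.JT3.Descent.UnramCore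
import Fermat.Agent.JT3.Gateway.ValPlace

set_option autoImplicit false

namespace Fermat.Agent.JT3

open Polynomial AlgebraicCurve

section ConstExt

variable {K0 Kbar F0 Fbar : Type*} [Field K0] [Field Kbar] [Field F0] [Field Fbar]
  [Algebra K0 Kbar] [Algebra K0 F0] [Algebra F0 Fbar] [Algebra Kbar Fbar] [Algebra K0 Fbar]
  [IsScalarTower K0 F0 Fbar] [IsScalarTower K0 Kbar Fbar]

/-- data of a valuation subring of `Fbar` dominating the place `Q` of `F0`. -/
structure dsc_Dom (Q : Place K0 F0) (V : ValuationSubring Fbar) : Prop where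
  mem_iff : ∀ x : F0, algebraMap F0 Fbar x ∈ V ↔ x ∈ Q.toValuationSubring
  nonunit : ∀ x : F0, x ∈ Q.toValuationSubring.nonunits → algebraMap F0 Fbar x ∈ V.nonunits

omit [Field Kbar] [Algebra K0 Kbar] [Algebra Kbar Fbar] [Algebra K0 Fbar]
  [IsScalarTower K0 F0 Fbar] [IsScalarTower K0 Kbar Fbar] in
/-- a dominating valuation subring exists -/
theorem dsc_exists_dom (Q : Place K0 F0) : ∃ V : ValuationSubring Fbar, dsc_Dom Q V := by
  classical
  set w := Q.toValuationSubring with hw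
  set ι := algebraMap F0 Fbar with hι
  have hinj : Function.Injective ι := ι.injective
  set A : Subring Fbar := w.toSubring.map ι with hA
  obtain ⟨ϖ, hϖ⟩ := IsDiscreteValuationRing.exists_irreducible w
  have hϖA : ι (ϖ : F0) ∈ A := ⟨ϖ, ϖ.2, rfl⟩
  set I : Ideal A := Ideal.span {⟨ι (ϖ : F0), hϖA⟩} with hI
  have hItop : I ≠ ⊤ := by
    intro htop
    rw [hI, Ideal.span_singleton_eq_top] at htop
    obtain ⟨⟨b, b0, hb0, rfl⟩, hb⟩ := isUnit_iff_exists_inv.1 htop
    have h1 : ι ((ϖ : F0) * b0) = 1 := by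
      have := congrArg Subtype.val hb
      simpa [map_mul] using this
    have h2 : (ϖ : F0) * b0 = 1 := hinj (by rw [h1, map_one])
    apply hϖ.not_isUnit
    exact IsUnit.of_mul_eq_one (⟨b0, hb0⟩ : w) (Subtype.ext h2)
  obtain ⟨V, hAV, hIV⟩ := Ideal.image_subset_nonunits_valuationSubring I hItop
  have hϖV : ι (ϖ : F0) ∈ V.nonunits :=
    hIV ⟨⟨ι (ϖ : F0), hϖA⟩, Ideal.subset_span rfl, rfl⟩
  have hnon : ∀ x : F0, x ∈ w.nonunits → ι x ∈ V.nonunits := by
    intro x hx
    obtain ⟨hxw, hxm⟩ := (ValuationSubring.mem_nonunits_iff_exists_mem_maximalIdeal).1 hx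
    rw [hϖ.maximalIdeal_eq, Ideal.mem_span_singleton] at hxm
    obtain ⟨c, hc⟩ := hxm
    have hx' : x = (ϖ : F0) * (c : F0) := by
      have := congrArg Subtype.val hc
      simpa using this
    have hcV : ι (c : F0) ∈ V := hAV ⟨c, c.2, rfl⟩
    rw [hx', map_mul]
    -- nonunits is an ideal of V
    have h1 : (⟨ι (ϖ : F0), ValuationSubring.nonunits_subset hϖV⟩ : V) ∈
        IsLocalRing.maximalIdeal V := ValuationSubring.coe_mem_nonunits_iff.1 hϖV
    have h2 : (⟨ι (ϖ : F0), ValuationSubring.nonunits_subset hϖV⟩ : V) * ⟨ι (c : F0), hcV⟩ ∈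
        IsLocalRing.maximalIdeal V := Ideal.mul_mem_right _ _ h1
    exact ValuationSubring.coe_mem_nonunits_iff.2 h2
  refine ⟨V, ⟨fun x => ⟨fun hx => ?_, fun hx => hAV ⟨x, hx, rfl⟩⟩, hnon⟩⟩
  by_contra hxw
  have hx0 : x ≠ 0 := fun h => hxw (h ▸ w.zero_mem)
  have hinv : x⁻¹ ∈ w.nonunits := by
    rw [ValuationSubring.inv_mem_nonunits_iff]
    exact Or.inr hxw
  have h1 := hnon _ hinv
  rw [map_inv₀, ValuationSubring.inv_mem_nonunits_iff] at h1
  rcases h1 with h1 | h1
  · exact hx0 (hinj (by rw [h1, map_zero]))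
  · exact h1 hx

variable {Q : Place K0 F0} {V : ValuationSubring Fbar}

omit [Field Kbar] [Algebra K0 Kbar] [Algebra Kbar Fbar] [IsScalarTower K0 Kbar Fbar] in
theorem dsc_Dom.algebraMap_mem (hV : dsc_Dom Q V) (c : K0) : algebraMap K0 Fbar c ∈ V := by
  rw [IsScalarTower.algebraMap_apply K0 F0 Fbar]
  exact (hV.mem_iff _).2 (Q.algebraMap_mem' c)

/-- the constants `K0` inside `V` -/
noncomputable def dsc_Dom.sigma (hV : dsc_Dom Q V) : K0 →+* V :=
  (algebraMap K0 Fbar).codRestrict V.toSubring hV.algebraMap_mem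

/-- the inclusion of the valuation ring of `Q` into `V` -/
noncomputable def dsc_Dom.phi (hV : dsc_Dom Q V) : Q.toValuationSubring →+* V :=
  ((algebraMap F0 Fbar).comp Q.toValuationSubring.subtype).codRestrict V.toSubring
    (fun x => (hV.mem_iff _).2 x.2)

omit [Field Kbar] [Algebra K0 Kbar] [Algebra Kbar Fbar] [Algebra K0 Fbar]
  [IsScalarTower K0 F0 Fbar] [IsScalarTower K0 Kbar Fbar] in
@[simp] theorem dsc_Dom.coe_phi (hV : dsc_Dom Q V) (x : Q.toValuationSubring) :
    ((hV.phi x : V) : Fbar) = algebraMap F0 Fbar (x : F0) := rfl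

omit [Field Kbar] [Algebra K0 Kbar] [Algebra Kbar Fbar] [Algebra K0 Fbar]
  [IsScalarTower K0 F0 Fbar] [IsScalarTower K0 Kbar Fbar] in
theorem dsc_Dom.isLocalHom_phi (hV : dsc_Dom Q V) : IsLocalHom hV.phi := by
  constructor
  intro x hx
  by_contra hnu
  have h1 : (x : F0) ∈ Q.toValuationSubring.nonunits :=
    ValuationSubring.coe_mem_nonunits_iff.2 ((IsLocalRing.mem_maximalIdeal _).2 hnu)
  have h2 := hV.nonunit _ h1
  have h3 : ((hV.phi x : V) : Fbar) ∈ V.nonunits := h2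
  rw [ValuationSubring.coe_mem_nonunits_iff, IsLocalRing.mem_maximalIdeal] at h3
  exact h3 hx

/-- constants of `Kbar` lie in every dominating valuation ring -/
theorem dsc_Dom.const_mem [Algebra.IsAlgebraic K0 Kbar] (hV : dsc_Dom Q V) (c : Kbar) :
    algebraMap Kbar Fbar c ∈ V := by
  have hint : IsIntegral K0 c := Algebra.IsIntegral.isIntegral c
  have h1 : IsIntegral V (algebraMap Kbar Fbar c) := by
    refine ⟨(minpoly K0 c).map hV.sigma, (minpoly.monic hint).map _, ?_⟩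
    rw [eval₂_map]
    have hcomp : (algebraMap V Fbar).comp hV.sigma = algebraMap K0 Fbar := by
      ext x; rfl
    rw [hcomp, ← aeval_def, aeval_algebraMap_apply, minpoly.aeval, map_zero]
  obtain ⟨y, hy⟩ := IsIntegrallyClosed.isIntegral_iff.1 h1
  rw [← hy]
  exact y.2

/-- structure of `a(θ)` for an integral polynomial `a`: a power of the uniformiser of `Q` times a
unit of `V`. -/
theorem dsc_Dom.structure_int [Algebra.IsSeparable K0 Kbar] (hV : dsc_Dom Q V)
    {ϖ : Q.toValuationSubring} (hϖ : Irreducible ϖ) (θ : Kbar)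
    (a : (Q.toValuationSubring)[X])
    (ha : eval₂ ((algebraMap F0 Fbar).comp Q.toValuationSubring.subtype)
      (algebraMap Kbar Fbar θ) a ≠ 0) :
    ∃ (k : ℕ) (u : Vˣ),
      eval₂ ((algebraMap F0 Fbar).comp Q.toValuationSubring.subtype)
        (algebraMap Kbar Fbar θ) a = algebraMap F0 Fbar (ϖ : F0) ^ k * ((u : V) : Fbar) := by
  classical
  let _ : Algebra Q.toValuationSubring V := hV.phi.toAlgebra
  have _ : IsLocalHom (algebraMap Q.toValuationSubring V) := hV.isLocalHom_phi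
  have hphi : ∀ x : Q.toValuationSubring,
      ((algebraMap Q.toValuationSubring V x : V) : Fbar) = algebraMap F0 Fbar (x : F0) :=
    fun x => rfl
  have hcompV : (V.subtype : V →+* Fbar).comp (algebraMap Q.toValuationSubring V) =
      (algebraMap F0 Fbar).comp Q.toValuationSubring.subtype := by
    ext x; rfl
  set θV : V := ⟨algebraMap Kbar Fbar θ, hV.const_mem θ⟩ with hθV
  have hev : ∀ b : (Q.toValuationSubring)[X], ((aeval θV b : V) : Fbar) =
      eval₂ ((algebraMap F0 Fbar).comp Q.toValuationSubring.subtype)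
        (algebraMap Kbar Fbar θ) b := by
    intro b
    have := hom_eval₂ b (algebraMap Q.toValuationSubring V) (V.subtype : V →+* Fbar) θV
    rw [hcompV] at this
    rw [aeval_def]
    exact this
  have hsat : ∀ (c : Q.toValuationSubring) (k : ℕ),
      algebraMap Q.toValuationSubring V ϖ ^ k ∣ algebraMap Q.toValuationSubring V c →
        ϖ ^ k ∣ c := by
    rintro c k ⟨d, hd⟩
    have hϖ0 : (ϖ : F0) ≠ 0 := fun h => hϖ.ne_zero (Subtype.ext h)
    have hιϖ0 : algebraMap F0 Fbar (ϖ : F0) ≠ 0 := by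
      rw [Ne, map_eq_zero]; exact hϖ0
    have hd' : algebraMap F0 Fbar (c : F0) = algebraMap F0 Fbar (ϖ : F0) ^ k * (d : Fbar) := by
      have := congrArg (Subtype.val) hd
      simpa [hphi] using this
    have hdeq : (d : Fbar) = algebraMap F0 Fbar ((c : F0) / (ϖ : F0) ^ k) := by
      rw [map_div₀, map_pow, hd']
      field_simp
    have hmem : (c : F0) / (ϖ : F0) ^ k ∈ Q.toValuationSubring := by
      rw [← hV.mem_iff, ← hdeq]; exact d.2
    refine ⟨⟨_, hmem⟩, Subtype.ext ?_⟩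
    show (c : F0) = ((ϖ ^ k : Q.toValuationSubring) : F0) * ((c : F0) / (ϖ : F0) ^ k)
    have hpow : ((ϖ ^ k : Q.toValuationSubring) : F0) = (ϖ : F0) ^ k := by
      simp
    rw [hpow]
    field_simp
  set h : (Q.toValuationSubring)[X] := (minpoly K0 θ).map (algebraMap K0 Q.toValuationSubring)
    with hh
  have hint : IsIntegral K0 θ := Algebra.IsIntegral.isIntegral θ
  have hmonic : h.Monic := (minpoly.monic hint).map _
  have hroot : aeval θV h = 0 := by
    apply Subtype.ext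
    rw [hev, hh, eval₂_map]
    have hcomp : ((algebraMap F0 Fbar).comp Q.toValuationSubring.subtype).comp
        (algebraMap K0 Q.toValuationSubring) = algebraMap K0 Fbar := by
      ext x
      show algebraMap F0 Fbar (algebraMap K0 F0 x) = algebraMap K0 Fbar x
      rw [← IsScalarTower.algebraMap_apply]
    rw [hcomp, ← aeval_def, aeval_algebraMap_apply, minpoly.aeval, map_zero]
    rfl
  have hsep : (h.map (IsLocalRing.residue Q.toValuationSubring)).Separable := by
    rw [hh, Polynomial.map_map]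
    exact Polynomial.Separable.map (Algebra.IsSeparable.isSeparable K0 θ)
  have ha' : aeval θV a ≠ 0 := by
    intro h0
    apply ha
    rw [← hev, h0]
    rfl
  obtain ⟨k, u, hku⟩ := dsc_unram_core hϖ hsat θV h hmonic hroot hsep a ha'
  refine ⟨k, u, ?_⟩
  rw [← hev, hku]
  simp [hphi]

omit [Field K0] [Field Kbar] [Field F0] [Algebra K0 Kbar] [Algebra K0 F0] [Algebra F0 Fbar]
  [Algebra Kbar Fbar] [Algebra K0 Fbar] [IsScalarTower K0 F0 Fbar] [IsScalarTower K0 Kbar Fbar] in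
theorem dsc_coe_unit_inv (u : Vˣ) : (((u⁻¹ : Vˣ) : V) : Fbar) = ((u : V) : Fbar)⁻¹ := by
  have h2 : (u : V) * ((u⁻¹ : Vˣ) : V) = 1 := Units.mul_inv u
  have h3 := congrArg (fun z : V => (z : Fbar)) h2
  have h1 : ((u : V) : Fbar) * (((u⁻¹ : Vˣ) : V) : Fbar) = 1 := by
    simpa only [MulMemClass.coe_mul, OneMemClass.coe_one] using h3
  exact (inv_eq_of_mul_eq_one_right h1).symm

/-- structure of `a(θ)` for an arbitrary polynomial `a : F0[X]`. -/
theorem dsc_Dom.structure_poly [Algebra.IsSeparable K0 Kbar] (hV : dsc_Dom Q V)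
    {ϖ : Q.toValuationSubring} (hϖ : Irreducible ϖ) (θ : Kbar) (a : F0[X])
    (ha : aeval (algebraMap Kbar Fbar θ) a ≠ 0) :
    ∃ (n : ℤ) (u : Vˣ),
      aeval (algebraMap Kbar Fbar θ) a = algebraMap F0 Fbar (ϖ : F0) ^ n * ((u : V) : Fbar) := by
  obtain ⟨b, hbM, hb⟩ := IsLocalization.integerNormalization_spec
    (nonZeroDivisors Q.toValuationSubring) a
  set a0 := IsLocalization.integerNormalization (nonZeroDivisors Q.toValuationSubring) a with ha0
  have hb0 : b ≠ 0 := nonZeroDivisors.ne_zero hbM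
  have hbF0 : (b : F0) ≠ 0 := fun h => hb0 (Subtype.ext h)
  have hιb0 : algebraMap F0 Fbar (b : F0) ≠ 0 := by rw [Ne, map_eq_zero]; exact hbF0
  have hϖ0 : (ϖ : F0) ≠ 0 := fun h => hϖ.ne_zero (Subtype.ext h)
  have hιϖ0 : algebraMap F0 Fbar (ϖ : F0) ≠ 0 := by rw [Ne, map_eq_zero]; exact hϖ0
  -- evaluation of `a0`
  have hev : eval₂ ((algebraMap F0 Fbar).comp Q.toValuationSubring.subtype)
      (algebraMap Kbar Fbar θ) a0 =
        algebraMap F0 Fbar (b : F0) * aeval (algebraMap Kbar Fbar θ) a := by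
    have h1 : eval₂ (algebraMap F0 Fbar) (algebraMap Kbar Fbar θ)
        (a0.map (algebraMap Q.toValuationSubring F0)) =
        eval₂ ((algebraMap F0 Fbar).comp Q.toValuationSubring.subtype)
          (algebraMap Kbar Fbar θ) a0 := by
      rw [eval₂_map]; rfl
    rw [← h1, hb, aeval_def]
    rw [← algebraMap_smul F0 b a, Polynomial.smul_eq_C_mul, eval₂_mul, eval₂_C]
    rfl
  have hne : eval₂ ((algebraMap F0 Fbar).comp Q.toValuationSubring.subtype)
      (algebraMap Kbar Fbar θ) a0 ≠ 0 := by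
    rw [hev]; exact mul_ne_zero hιb0 ha
  obtain ⟨k, u, hku⟩ := hV.structure_int hϖ θ a0 hne
  obtain ⟨j, ub, hjb⟩ := IsDiscreteValuationRing.eq_unit_mul_pow_irreducible hb0 hϖ
  -- the unit `ub` of `w` as a unit of `V`
  set ubV : Vˣ := Units.map (hV.phi : Q.toValuationSubring →* V) ub with hubV
  have hubV_coe : ((ubV : V) : Fbar) = algebraMap F0 Fbar ((ub : Q.toValuationSubring) : F0) := rfl
  have hbcoe : (b : F0) = ((ub : Q.toValuationSubring) : F0) * (ϖ : F0) ^ j := by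
    have := congrArg (fun z : Q.toValuationSubring => (z : F0)) hjb
    simpa using this
  refine ⟨(k : ℤ) - (j : ℤ), u * ubV⁻¹, ?_⟩
  have hsolve : aeval (algebraMap Kbar Fbar θ) a =
      (algebraMap F0 Fbar (b : F0))⁻¹ *
        (algebraMap F0 Fbar (ϖ : F0) ^ k * ((u : V) : Fbar)) := by
    rw [← hku, hev, ← mul_assoc, inv_mul_cancel₀ hιb0, one_mul]
  rw [hsolve, hbcoe, map_mul, map_pow, Units.val_mul, MulMemClass.coe_mul, dsc_coe_unit_inv,
    hubV_coe, zpow_sub₀ hιϖ0, zpow_natCast, zpow_natCast]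
  have hub0 : algebraMap F0 Fbar ((ub : Q.toValuationSubring) : F0) ≠ 0 := by
    rw [Ne, map_eq_zero]
    intro h
    exact ub.ne_zero (Subtype.ext h)
  field_simp

/-- structure of an arbitrary nonzero element of `Fbar = F0 · Kbar`. -/
theorem dsc_Dom.structure [Algebra.IsSeparable K0 Kbar] (hV : dsc_Dom Q V)
    (hgen : ∀ y : Fbar, ∃ θ : Kbar, y ∈ IntermediateField.adjoin F0 {algebraMap Kbar Fbar θ})
    {ϖ : Q.toValuationSubring} (hϖ : Irreducible ϖ) (y : Fbar) (hy : y ≠ 0) :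
    ∃ (n : ℤ) (u : Vˣ), y = algebraMap F0 Fbar (ϖ : F0) ^ n * ((u : V) : Fbar) := by
  obtain ⟨θ, hθ⟩ := hgen y
  rw [IntermediateField.mem_adjoin_simple_iff] at hθ
  obtain ⟨r, s, hrs⟩ := hθ
  have hs0 : aeval (algebraMap Kbar Fbar θ) s ≠ 0 := by
    intro h0
    rw [h0, div_zero] at hrs
    exact hy hrs
  have hr0 : aeval (algebraMap Kbar Fbar θ) r ≠ 0 := by
    intro h0
    rw [h0, zero_div] at hrs
    exact hy hrs
  obtain ⟨n1, u1, h1⟩ := hV.structure_poly hϖ θ r hr0
  obtain ⟨n2, u2, h2⟩ := hV.structure_poly hϖ θ s hs0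
  have hϖ0 : (ϖ : F0) ≠ 0 := fun h => hϖ.ne_zero (Subtype.ext h)
  have hιϖ0 : algebraMap F0 Fbar (ϖ : F0) ≠ 0 := by rw [Ne, map_eq_zero]; exact hϖ0
  refine ⟨n1 - n2, u1 * u2⁻¹, ?_⟩
  rw [hrs, h1, h2, Units.val_mul, MulMemClass.coe_mul, dsc_coe_unit_inv, zpow_sub₀ hιϖ0]
  have hu2 : ((u2 : V) : Fbar) ≠ 0 := fun h => u2.ne_zero (Subtype.ext h)
  field_simp

end ConstExt

section ValOfStructure

variable (Kbar : Type*) {Fbar : Type*} [Field Kbar] [Field Fbar] [Algebra Kbar Fbar]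
  {V : ValuationSubring Fbar}

omit [Field Kbar] [Algebra Kbar Fbar] in
theorem dsc_zpow_mem_iff {t : Fbar} (ht : t ∈ V.nonunits) (ht0 : t ≠ 0) (d : ℤ) :
    t ^ d ∈ V ↔ 0 ≤ d := by
  have htV : t ∈ V := ValuationSubring.nonunits_subset ht
  constructor
  · intro h
    by_contra hd
    push Not at hd
    -- t ^ d ∈ V with d < 0 : then t is a unit
    obtain ⟨k, hk⟩ : ∃ k : ℕ, d = -((k : ℤ) + 1) := ⟨(-d - 1).toNat, by omega⟩
    have h1 : t * (t ^ k * t ^ d) = 1 := by
      rw [hk, zpow_neg, ← zpow_natCast t k]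
      have : t ^ ((k : ℤ) + 1) = t ^ (k : ℤ) * t := by rw [zpow_add_one₀ ht0]
      rw [this]
      field_simp
    have h2 : t⁻¹ = t ^ k * t ^ d := inv_eq_of_mul_eq_one_right h1
    have h3 : t⁻¹ ∈ V := by rw [h2]; exact V.mul_mem _ _ (pow_mem htV k) h
    rw [ValuationSubring.mem_nonunits_iff_or] at ht
    rcases ht with ht | ht
    · exact ht0 ht
    · exact ht h3
  · intro h
    obtain ⟨k, rfl⟩ := Int.eq_ofNat_of_zero_le h
    rw [zpow_natCast]
    exact pow_mem htV k

omit [Field Kbar] [Algebra Kbar Fbar] in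
theorem dsc_zpow_mul_unit_mem_iff {t : Fbar} (ht : t ∈ V.nonunits) (ht0 : t ≠ 0) (d : ℤ)
    (u : Vˣ) : t ^ d * ((u : V) : Fbar) ∈ V ↔ 0 ≤ d := by
  rw [← dsc_zpow_mem_iff ht ht0]
  constructor
  · intro h
    have h1 : t ^ d = t ^ d * ((u : V) : Fbar) * (((u⁻¹ : Vˣ) : V) : Fbar) := by
      rw [dsc_coe_unit_inv, mul_assoc, mul_inv_cancel₀, mul_one]
      exact fun h => u.ne_zero (Subtype.ext h)
    rw [h1]
    exact V.mul_mem _ _ h ((u⁻¹ : Vˣ) : V).2
  · intro h
    exact V.mul_mem _ _ h (u : V).2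

omit [Field Kbar] [Algebra Kbar Fbar] in
theorem dsc_exponent_unique {t : Fbar} (ht : t ∈ V.nonunits) (ht0 : t ≠ 0) {n m : ℤ}
    {u u' : Vˣ} (h : t ^ n * ((u : V) : Fbar) = t ^ m * ((u' : V) : Fbar)) : n = m := by
  have hu0 : ((u : V) : Fbar) ≠ 0 := fun h => u.ne_zero (Subtype.ext h)
  have hu'0 : ((u' : V) : Fbar) ≠ 0 := fun h => u'.ne_zero (Subtype.ext h)
  have key : ∀ (n m : ℤ) (u u' : Vˣ), t ^ n * ((u : V) : Fbar) = t ^ m * ((u' : V) : Fbar) →
      n ≤ m := by
    intro n m u u' h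
    have hu0 : ((u : V) : Fbar) ≠ 0 := fun h => u.ne_zero (Subtype.ext h)
    have h1 : t ^ (m - n) * (((u' * u⁻¹ : Vˣ) : V) : Fbar) = 1 := by
      rw [Units.val_mul, MulMemClass.coe_mul, dsc_coe_unit_inv, zpow_sub₀ ht0]
      have : t ^ n ≠ 0 := zpow_ne_zero _ ht0
      field_simp
      rw [h, mul_comm]
    have h2 : t ^ (m - n) * (((u' * u⁻¹ : Vˣ) : V) : Fbar) ∈ V := by rw [h1]; exact V.one_mem
    have := (dsc_zpow_mul_unit_mem_iff ht ht0 _ _).1 h2
    omega
  exact le_antisymm (key n m u u' h) (key m n u' u h.symm)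

/-- A valuation subring `V ⊇ Kbar` of `Fbar` in which every nonzero element is a power of a fixed
nonunit `t` times a unit is (the valuation ring of) a place `P` of `Fbar / Kbar`, with
`ord_P (t ^ n * u) = n`. -/
theorem dsc_place_of_structure {t : Fbar} (ht : t ∈ V.nonunits) (ht0 : t ≠ 0)
    (hconst : ∀ c : Kbar, algebraMap Kbar Fbar c ∈ V)
    (hstr : ∀ y : Fbar, y ≠ 0 → ∃ (n : ℤ) (u : Vˣ), y = t ^ n * ((u : V) : Fbar)) :
    ∃ P : Place Kbar Fbar, ∀ (n : ℤ) (u : Vˣ), P.ord (t ^ n * ((u : V) : Fbar)) = n := by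
  classical
  set v : Fbar → ℤ := fun y => if hy : y = 0 then 0 else (hstr y hy).choose with hv
  have hu0 : ∀ u : Vˣ, ((u : V) : Fbar) ≠ 0 := fun u h => u.ne_zero (Subtype.ext h)
  have hvspec : ∀ (n : ℤ) (u : Vˣ), v (t ^ n * ((u : V) : Fbar)) = n := by
    intro n u
    have hne : t ^ n * ((u : V) : Fbar) ≠ 0 := mul_ne_zero (zpow_ne_zero _ ht0) (hu0 u)
    have h1 : v (t ^ n * ((u : V) : Fbar)) = (hstr _ hne).choose := by
      rw [hv]; simp only [dif_neg hne]
    rw [h1]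
    obtain ⟨u', hu'⟩ := (hstr _ hne).choose_spec
    exact (dsc_exponent_unique ht ht0 hu').symm
  have hval : gw_IsVal Kbar v := by
    refine ⟨?_, ?_, ?_⟩
    · intro f g hf hg
      obtain ⟨n, u, rfl⟩ := hstr f hf
      obtain ⟨m, u', rfl⟩ := hstr g hg
      have : t ^ n * ((u : V) : Fbar) * (t ^ m * ((u' : V) : Fbar)) =
          t ^ (n + m) * (((u * u' : Vˣ) : V) : Fbar) := by
        rw [zpow_add₀ ht0, Units.val_mul, MulMemClass.coe_mul]; ring
      rw [this, hvspec, hvspec, hvspec]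
    · intro f g hf hg hfg
      obtain ⟨n, u, hfe⟩ := hstr f hf
      obtain ⟨m, u', hge⟩ := hstr g hg
      obtain ⟨l, u'', hfge⟩ := hstr (f + g) hfg
      have hvf : v f = n := by rw [hfe, hvspec]
      have hvg : v g = m := by rw [hge, hvspec]
      have hvfg : v (f + g) = l := by rw [hfge, hvspec]
      rw [hvf, hvg, hvfg]
      -- divide by t ^ (min n m)
      set d := min n m with hd
      have h1 : t ^ (l - d) * ((u'' : V) : Fbar) =
          t ^ (n - d) * ((u : V) : Fbar) + t ^ (m - d) * ((u' : V) : Fbar) := by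
        have hd0 : t ^ d ≠ 0 := zpow_ne_zero _ ht0
        rw [zpow_sub₀ ht0, zpow_sub₀ ht0, zpow_sub₀ ht0]
        field_simp
        rw [← hfe, ← hge, ← hfge]
      have h2 : t ^ (l - d) * ((u'' : V) : Fbar) ∈ V := by
        rw [h1]
        refine V.add_mem _ _ ?_ ?_
        · exact (dsc_zpow_mul_unit_mem_iff ht ht0 _ _).2 (by omega)
        · exact (dsc_zpow_mul_unit_mem_iff ht ht0 _ _).2 (by omega)
      have := (dsc_zpow_mul_unit_mem_iff ht ht0 _ _).1 h2
      omega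
    · intro c hc
      have hc0 : algebraMap Kbar Fbar c ≠ 0 := by rw [Ne, map_eq_zero]; exact hc
      have hcV : algebraMap Kbar Fbar c ∈ V := hconst c
      have hcV' : (algebraMap Kbar Fbar c)⁻¹ ∈ V := by rw [← map_inv₀]; exact hconst _
      set uc : Vˣ := ⟨⟨_, hcV⟩, ⟨_, hcV'⟩, Subtype.ext (mul_inv_cancel₀ hc0),
        Subtype.ext (inv_mul_cancel₀ hc0)⟩ with huc
      have : algebraMap Kbar Fbar c = t ^ (0 : ℤ) * ((uc : V) : Fbar) := by
        rw [zpow_zero, one_mul]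
      rw [this, hvspec]
  have hnt : ∃ f : Fbar, f ≠ 0 ∧ v f ≠ 0 := by
    refine ⟨t, ht0, ?_⟩
    have : t = t ^ (1 : ℤ) * (((1 : Vˣ) : V) : Fbar) := by simp
    rw [this, hvspec]
    exact one_ne_zero
  obtain ⟨P, e, he, hP⟩ := gw_val_eq_ord Kbar hval hnt
  have hvt : v t = 1 := by
    have : t = t ^ (1 : ℤ) * (((1 : Vˣ) : V) : Fbar) := by simp
    rw [this, hvspec]
  have he1 : e = 1 := by
    have h1 := hP t ht0
    rw [hvt] at h1
    have hdvd : e ∣ 1 := ⟨P.ord t, h1⟩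
    exact Int.eq_one_of_dvd_one he.le hdvd
  refine ⟨P, fun n u => ?_⟩
  have hne : t ^ n * ((u : V) : Fbar) ≠ 0 := mul_ne_zero (zpow_ne_zero _ ht0) (hu0 u)
  have := hP _ hne
  rw [hvspec, he1, one_mul] at this
  exact this.symm

end ValOfStructure

section Main

variable {K0 Kbar F0 Fbar : Type*} [Field K0] [Field Kbar] [Field F0] [Field Fbar]
  [Algebra K0 Kbar] [Algebra K0 F0] [Algebra F0 Fbar] [Algebra Kbar Fbar] [Algebra K0 Fbar]
  [IsScalarTower K0 F0 Fbar] [IsScalarTower K0 Kbar Fbar] [Algebra.IsSeparable K0 Kbar]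

/-- **Constant field extensions are unramified.**  Every place `Q` of `F0 / K0` is the restriction
of a place `P` of `Fbar / Kbar` with the same order function on `F0`. -/
theorem dsc_exists_place
    (hgen : ∀ y : Fbar, ∃ θ : Kbar, y ∈ IntermediateField.adjoin F0 {algebraMap Kbar Fbar θ})
    (Q : Place K0 F0) :
    ∃ P : Place Kbar Fbar, ∀ x : F0, P.ord (algebraMap F0 Fbar x) = Q.ord x := by
  obtain ⟨V, hV⟩ := dsc_exists_dom (Fbar := Fbar) Q
  obtain ⟨ϖ, hϖ⟩ := IsDiscreteValuationRing.exists_irreducible Q.toValuationSubring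
  have hϖ0 : (ϖ : F0) ≠ 0 := fun h => hϖ.ne_zero (Subtype.ext h)
  have hιϖ0 : algebraMap F0 Fbar (ϖ : F0) ≠ 0 := by rw [Ne, map_eq_zero]; exact hϖ0
  have hϖm : (ϖ : F0) ∈ Q.toValuationSubring.nonunits := by
    rw [ValuationSubring.coe_mem_nonunits_iff, IsLocalRing.mem_maximalIdeal]
    exact hϖ.not_isUnit
  have ht := hV.nonunit _ hϖm
  obtain ⟨P, hP⟩ := dsc_place_of_structure Kbar ht hιϖ0 hV.const_mem
    (fun y hy => hV.structure hgen hϖ y hy)
  refine ⟨P, fun x => ?_⟩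
  rcases eq_or_ne x 0 with rfl | hx
  · simp
  · obtain ⟨u, hu⟩ := Q.exists_unit_mul_zpow hx hϖ
    set uV : Vˣ := Units.map (hV.phi : Q.toValuationSubring →* V) u with huV
    have huV_coe : ((uV : V) : Fbar) = algebraMap F0 Fbar ((u : Q.toValuationSubring) : F0) := rfl
    have : algebraMap F0 Fbar x =
        algebraMap F0 Fbar (ϖ : F0) ^ (Q.ord x) * ((uV : V) : Fbar) := by
      rw [huV_coe]
      conv_lhs => rw [hu]
      rw [map_mul, map_zpow₀, mul_comm]
    rw [this, hP]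

/-- divisibility of orders descends from `Fbar / Kbar` to `F0 / K0`. -/
theorem dsc_dvd_ord
    (hgen : ∀ y : Fbar, ∃ θ : Kbar, y ∈ IntermediateField.adjoin F0 {algebraMap Kbar Fbar θ})
    (m : ℤ) (f : F0) (h : ∀ P : Place Kbar Fbar, m ∣ P.ord (algebraMap F0 Fbar f))
    (Q : Place K0 F0) : m ∣ Q.ord f := by
  obtain ⟨P, hP⟩ := dsc_exists_place (Kbar := Kbar) (Fbar := Fbar) hgen Q
  rw [← hP]
  exact h P

end Main

end Fermat.Agent.JT3
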