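/-
JT3 / (F2) DESC part (D-ii), helper12.  Base change of `laurentBaseChange L F₀` along an extension
of constant fields `L0 ⊆ L`:

* the comparison homomorphism `dsc_bcHom : F_{L0} →+* F_L` (coefficientwise),
* `F_L = F_{L0} · L` in the shape needed by `dsc_exists_place` (`dsc_bc_hgen`),
* hence divisibility of orders descends from `F_L / L` to `F_{L0} / L0` (`dsc_bc_dvd_ord`),
* every element of `F_L` is defined over a finitely generated subextension (`dsc_bc_exists_fg`).
-/
import Mathlib
import Fermat.Prelude.Def_ModularCurve_LaurentCoeff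
import Fermat.Prelude.Def_AlgebraicCurve_DivisorClassGroup
import Fermat.Agent.JT3.Descent.ConstExt

set_option autoImplicit false
set_option linter.unusedSectionVars false

namespace Fermat.Agent.JT3

open ModularCurve AlgebraicCurve Polynomial

/-! ### abstract part: `Fbar = F0 · Kbar` in the shape `hgen` of `dsc_exists_place` -/

section
variable {K0 Kbar F0 Fbar : Type*} [Field K0] [Field Kbar] [Field F0] [Field Fbar]
  [Algebra K0 Kbar] [Algebra K0 F0] [Algebra F0 Fbar] [Algebra Kbar Fbar] [Algebra K0 Fbar]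
  [IsScalarTower K0 F0 Fbar] [IsScalarTower K0 Kbar Fbar]

/-- constants of a finite separable subextension lie in a simple extension of `F0`. -/
theorem dsc_const_mem_adjoin_simple (E : IntermediateField K0 Kbar) [FiniteDimensional K0 E]
    [Algebra.IsSeparable K0 E] :
    ∃ θ : Kbar, ∀ c ∈ E, algebraMap Kbar Fbar c ∈
      IntermediateField.adjoin F0 {algebraMap Kbar Fbar θ} := by
  obtain ⟨α, hα⟩ := Field.exists_primitive_element K0 E
  refine ⟨(α : Kbar), fun c hc => ?_⟩
  have hmem : (⟨c, hc⟩ : E) ∈ IntermediateField.adjoin K0 {α} := by rw [hα]; trivial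
  obtain ⟨r, s, hrs⟩ := IntermediateField.mem_adjoin_simple_iff K0 _ |>.1 hmem
  have hc' : c = aeval (α : Kbar) r / aeval (α : Kbar) s := by
    have := congrArg (algebraMap E Kbar) hrs
    simpa [Polynomial.aeval_algebraMap_apply] using this
  have key : ∀ p : K0[X], algebraMap Kbar Fbar (aeval (α : Kbar) p) ∈
      IntermediateField.adjoin F0 {algebraMap Kbar Fbar (α : Kbar)} := by
    intro p
    rw [← Polynomial.aeval_algebraMap_apply, ← Polynomial.aeval_map_algebraMap F0]
    exact IntermediateField.algebra_adjoin_le_adjoin F0 _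
      (Polynomial.aeval_mem_adjoin_singleton F0 _)
  rw [hc', map_div₀]
  exact div_mem (key r) (key s)

end

section
variable {K0 Kbar F0 Fbar : Type*} [Field K0] [Field Kbar] [Field F0] [Field Fbar]
  [Algebra K0 Kbar] [Algebra K0 F0] [Algebra F0 Fbar] [Algebra Kbar Fbar] [Algebra K0 Fbar]
  [IsScalarTower K0 F0 Fbar] [IsScalarTower K0 Kbar Fbar]

theorem dsc_exists_finite_of_mem_closure [Algebra.IsAlgebraic K0 Kbar] {y : Fbar}
    (hy : y ∈ Subfield.closure
      (Set.range (algebraMap F0 Fbar) ∪ Set.range (algebraMap Kbar Fbar))) :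
    ∃ E : IntermediateField K0 Kbar, FiniteDimensional K0 E ∧
      y ∈ Subfield.closure (Set.range (algebraMap F0 Fbar) ∪
        (algebraMap Kbar Fbar '' (E : Set Kbar))) := by
  induction hy using Subfield.closure_induction with
  | mem z hz =>
      rcases hz with ⟨a, rfl⟩ | ⟨c, rfl⟩
      · exact ⟨⊥, inferInstance, Subfield.subset_closure (Or.inl ⟨a, rfl⟩)⟩
      · refine ⟨IntermediateField.adjoin K0 {c},
          IntermediateField.adjoin.finiteDimensional (Algebra.IsIntegral.isIntegral c),
          Subfield.subset_closure (Or.inr ⟨c, IntermediateField.mem_adjoin_simple_self K0 c, rfl⟩)⟩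
  | one => exact ⟨⊥, inferInstance, one_mem _⟩
  | add x y _ _ hx hy =>
      obtain ⟨E1, h1, hx⟩ := hx
      obtain ⟨E2, h2, hy⟩ := hy
      refine ⟨E1 ⊔ E2, IntermediateField.finiteDimensional_sup E1 E2, add_mem ?_ ?_⟩
      · exact Subfield.closure_mono (Set.union_subset_union_right _
          (Set.image_mono (SetLike.coe_subset_coe.2 le_sup_left))) hx
      · exact Subfield.closure_mono (Set.union_subset_union_right _
          (Set.image_mono (SetLike.coe_subset_coe.2 le_sup_right))) hy
  | neg x _ hx =>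
      obtain ⟨E1, h1, hx⟩ := hx
      exact ⟨E1, h1, neg_mem hx⟩
  | inv x _ hx =>
      obtain ⟨E1, h1, hx⟩ := hx
      exact ⟨E1, h1, inv_mem hx⟩
  | mul x y _ _ hx hy =>
      obtain ⟨E1, h1, hx⟩ := hx
      obtain ⟨E2, h2, hy⟩ := hy
      refine ⟨E1 ⊔ E2, IntermediateField.finiteDimensional_sup E1 E2, mul_mem ?_ ?_⟩
      · exact Subfield.closure_mono (Set.union_subset_union_right _
          (Set.image_mono (SetLike.coe_subset_coe.2 le_sup_left))) hx
      · exact Subfield.closure_mono (Set.union_subset_union_right _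
          (Set.image_mono (SetLike.coe_subset_coe.2 le_sup_right))) hy

theorem dsc_hgen_of_closure [Algebra.IsAlgebraic K0 Kbar] [Algebra.IsSeparable K0 Kbar]
    (htop : ∀ y : Fbar, y ∈ Subfield.closure
      (Set.range (algebraMap F0 Fbar) ∪ Set.range (algebraMap Kbar Fbar))) (y : Fbar) :
    ∃ θ : Kbar, y ∈ IntermediateField.adjoin F0 {algebraMap Kbar Fbar θ} := by
  obtain ⟨E, hE, hy⟩ := dsc_exists_finite_of_mem_closure (K0 := K0) (htop y)
  obtain ⟨θ, hθ⟩ := dsc_const_mem_adjoin_simple (F0 := F0) (Fbar := Fbar) E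
  refine ⟨θ, ?_⟩
  have hle : Subfield.closure (Set.range (algebraMap F0 Fbar) ∪
      (algebraMap Kbar Fbar '' (E : Set Kbar))) ≤
      (IntermediateField.adjoin F0 {algebraMap Kbar Fbar θ}).toSubfield := by
    rw [Subfield.closure_le]
    rintro z (⟨a, rfl⟩ | ⟨c, hc, rfl⟩)
    · exact IntermediateField.algebraMap_mem _ a
    · exact hθ c hc
  exact hle hy

end

section BaseChange

variable (L0 L : Type*) [Field L0] [Field L] [Algebra ℚ L0] [Algebra ℚ L] [Algebra L0 L]
  [IsScalarTower ℚ L0 L] (F₀ : IntermediateField ℚ (LaurentSeries ℚ))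

/-- coefficientwise extension of constants -/
noncomputable def dsc_cm : LaurentSeries L0 →+* LaurentSeries L := coeffMap (algebraMap L0 L)

theorem dsc_cm_coeffEmb (x : LaurentSeries ℚ) : dsc_cm L0 L (coeffEmb L0 x) = coeffEmb L x := by
  rw [dsc_cm, coeffEmb, coeffMap_coeffMap, coeffEmb]
  exact coeffMap_congr (by rw [← IsScalarTower.algebraMap_eq]) x

theorem dsc_cm_algebraMap (c : L0) :
    dsc_cm L0 L (algebraMap L0 (LaurentSeries L0) c) =
      algebraMap L (LaurentSeries L) (algebraMap L0 L c) := by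
  rw [dsc_cm, algebraMap_laurentSeries_eq_single, algebraMap_laurentSeries_eq_single,
    coeffMap_single]

theorem dsc_cm_injective : Function.Injective (dsc_cm L0 L) := (dsc_cm L0 L).injective

variable {L0 F₀} in
theorem dsc_cm_mem {x : LaurentSeries L0} (hx : x ∈ laurentBaseChange L0 F₀) :
    dsc_cm L0 L x ∈ laurentBaseChange L F₀ := by
  rw [mem_laurentBaseChange_iff] at hx
  induction hx using Subfield.closure_induction with
  | mem y hy =>
      rcases hy with ⟨a, rfl⟩ | ⟨z, hz, rfl⟩
      · rw [dsc_cm_algebraMap]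
        exact (laurentBaseChange L F₀).algebraMap_mem _
      · rw [dsc_cm_coeffEmb]
        exact coeffEmb_mem_laurentBaseChange L hz
  | one => simp
  | add x y _ _ hx hy => simpa using add_mem hx hy
  | neg x _ hx => simpa using neg_mem hx
  | inv x _ hx => simpa using inv_mem hx
  | mul x y _ _ hx hy => simpa using mul_mem hx hy

/-- the comparison homomorphism `F_{L0} → F_L` -/
noncomputable def dsc_bcHom : laurentBaseChange L0 F₀ →+* laurentBaseChange L F₀ :=
  ((dsc_cm L0 L).comp (laurentBaseChange L0 F₀).val.toRingHom).codRestrict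
    (laurentBaseChange L F₀).toSubfield.toSubring (fun x => dsc_cm_mem L x.2)

@[simp] theorem dsc_bcHom_coe (x : laurentBaseChange L0 F₀) :
    ((dsc_bcHom L0 L F₀ x : laurentBaseChange L F₀) : LaurentSeries L) =
      dsc_cm L0 L (x : LaurentSeries L0) := rfl

theorem dsc_bcHom_algebraMap (c : L0) :
    dsc_bcHom L0 L F₀ (algebraMap L0 (laurentBaseChange L0 F₀) c) =
      algebraMap L (laurentBaseChange L F₀) (algebraMap L0 L c) :=
  Subtype.ext (dsc_cm_algebraMap L0 L c)

theorem dsc_bcHom_injective : Function.Injective (dsc_bcHom L0 L F₀) :=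
  (dsc_bcHom L0 L F₀).injective

/-- the `F_{L0}`-algebra structure of `F_L` (NOT an instance: use
`attribute [local instance] dsc_bcAlgebra`). -/
@[instance_reducible]
noncomputable def dsc_bcAlgebra : Algebra (laurentBaseChange L0 F₀) (laurentBaseChange L F₀) :=
  (dsc_bcHom L0 L F₀).toAlgebra

/-- the `L0`-algebra structure of `F_L` (NOT an instance). -/
@[instance_reducible]
noncomputable def dsc_bcAlgebra' : Algebra L0 (laurentBaseChange L F₀) :=
  ((algebraMap L (laurentBaseChange L F₀)).comp (algebraMap L0 L)).toAlgebra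

attribute [local instance] dsc_bcAlgebra dsc_bcAlgebra'

theorem dsc_bc_algebraMap_apply (x : laurentBaseChange L0 F₀) :
    algebraMap (laurentBaseChange L0 F₀) (laurentBaseChange L F₀) x = dsc_bcHom L0 L F₀ x := rfl

theorem dsc_bc_isScalarTower :
    IsScalarTower L0 (laurentBaseChange L0 F₀) (laurentBaseChange L F₀) :=
  IsScalarTower.of_algebraMap_eq (fun c => (dsc_bcHom_algebraMap L0 L F₀ c).symm)

theorem dsc_bc_isScalarTower' : IsScalarTower L0 L (laurentBaseChange L F₀) :=
  IsScalarTower.of_algebraMap_eq (fun _ => rfl)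

/-- `F_L` is generated, as a field, by `F_{L0}` and the constants `L`. -/
theorem dsc_bc_mem_closure (y : laurentBaseChange L F₀) :
    y ∈ Subfield.closure
      (Set.range (algebraMap (laurentBaseChange L0 F₀) (laurentBaseChange L F₀)) ∪
        Set.range (algebraMap L (laurentBaseChange L F₀))) := by
  set S := Subfield.closure
      (Set.range (algebraMap (laurentBaseChange L0 F₀) (laurentBaseChange L F₀)) ∪
        Set.range (algebraMap L (laurentBaseChange L F₀))) with hS
  have hle : Subfield.closure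
      (Set.range (algebraMap L (LaurentSeries L)) ∪
        (⇑(coeffEmb L) '' (F₀ : Set (LaurentSeries ℚ)))) ≤
      S.map (laurentBaseChange L F₀).val.toRingHom := by
    rw [Subfield.closure_le]
    rintro z (⟨a, rfl⟩ | ⟨w, hw, rfl⟩)
    · exact ⟨algebraMap L (laurentBaseChange L F₀) a,
        Subfield.subset_closure (Or.inr ⟨a, rfl⟩), rfl⟩
    · refine ⟨algebraMap (laurentBaseChange L0 F₀) (laurentBaseChange L F₀)
        ⟨coeffEmb L0 w, coeffEmb_mem_laurentBaseChange L0 hw⟩,
        Subfield.subset_closure (Or.inl ⟨_, rfl⟩), ?_⟩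
      exact dsc_cm_coeffEmb L0 L w
  obtain ⟨y', hy', hyy⟩ := hle (mem_laurentBaseChange_iff.1 y.2)
  have : y' = y := Subtype.ext hyy
  rwa [← this]

/-- the hypothesis `hgen` of `dsc_exists_place` for `F_L / F_{L0}`. -/
theorem dsc_bc_hgen [Algebra.IsAlgebraic L0 L] (y : laurentBaseChange L F₀) :
    ∃ θ : L, y ∈ IntermediateField.adjoin (laurentBaseChange L0 F₀)
      {algebraMap L (laurentBaseChange L F₀) θ} := by
  have _ : CharZero L0 := algebraRat.charZero L0
  have _ := dsc_bc_isScalarTower L0 L F₀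
  have _ := dsc_bc_isScalarTower' L0 L F₀
  exact dsc_hgen_of_closure (K0 := L0) (dsc_bc_mem_closure L0 L F₀) y

/-- **constant field extensions are unramified** for `F_L / F_{L0}`: every place of `F_{L0} / L0`
extends to a place of `F_L / L` with the same orders. -/
theorem dsc_bc_exists_place [Algebra.IsAlgebraic L0 L]
    (Q : Place L0 (laurentBaseChange L0 F₀)) :
    ∃ P : Place L (laurentBaseChange L F₀),
      ∀ x : laurentBaseChange L0 F₀, P.ord (dsc_bcHom L0 L F₀ x) = Q.ord x := by
  have _ : CharZero L0 := algebraRat.charZero L0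
  have _ := dsc_bc_isScalarTower L0 L F₀
  have _ := dsc_bc_isScalarTower' L0 L F₀
  exact dsc_exists_place (K0 := L0) (Kbar := L) (dsc_bc_hgen L0 L F₀) Q

/-- divisibility of all orders descends from `F_L / L` to `F_{L0} / L0`. -/
theorem dsc_bc_dvd_ord [Algebra.IsAlgebraic L0 L] (m : ℤ) (f : laurentBaseChange L0 F₀)
    (h : ∀ P : Place L (laurentBaseChange L F₀), m ∣ P.ord (dsc_bcHom L0 L F₀ f))
    (Q : Place L0 (laurentBaseChange L0 F₀)) : m ∣ Q.ord f := by
  obtain ⟨P, hP⟩ := dsc_bc_exists_place L0 L F₀ Q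
  rw [← hP f]
  exact h P

end BaseChange

section Lift

variable {R S : Type*} [CommRing R] [CommRing S]

/-- a Laurent series all of whose coefficients lie in the range of `f` is in the range of
`coeffMap f`. -/
theorem dsc_exists_coeffMap_eq (f : R →+* S) (x : LaurentSeries S)
    (h : ∀ k, x.coeff k ∈ Set.range f) : ∃ x' : LaurentSeries R, coeffMap f x' = x := by
  classical
  choose g hg using h
  let g' : ℤ → R := fun k => if x.coeff k = 0 then 0 else g k
  have hsupp : Function.support g' ⊆ x.support := by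
    intro k hk
    simp only [Function.mem_support, g'] at hk
    by_contra h0
    exact hk (by rw [if_pos (by simpa using h0)])
  refine ⟨⟨g', x.isPWO_support.mono hsupp⟩, ?_⟩
  ext k
  rw [coeffMap_coeff]
  show f (g' k) = x.coeff k
  by_cases h0 : x.coeff k = 0
  · simp [g', h0]
  · simp [g', h0, hg k]

theorem dsc_coeffMap_injective {f : R →+* S} (hf : Function.Injective f) :
    Function.Injective (coeffMap f) := by
  intro x y hxy
  ext k
  apply hf
  rw [← coeffMap_coeff, hxy, coeffMap_coeff]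

end Lift

section FG

variable (L : Type*) [Field L] [Algebra ℚ L] (F₀ : IntermediateField ℚ (LaurentSeries ℚ))

/-- every element of `F_L` is defined over the subfield generated by finitely many constants
(monotone form). -/
theorem dsc_bc_exists_fg {y : LaurentSeries L} (hy : y ∈ laurentBaseChange L F₀) :
    ∃ s : Finset L, ∀ L1 : IntermediateField ℚ L, (↑s : Set L) ⊆ L1 →
      ∃ y1 ∈ laurentBaseChange L1 F₀, dsc_cm L1 L y1 = y := by
  classical
  rw [mem_laurentBaseChange_iff] at hy
  induction hy using Subfield.closure_induction with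
  | mem z hz =>
      rcases hz with ⟨a, rfl⟩ | ⟨w, hw, rfl⟩
      · refine ⟨{a}, fun L1 h1 => ?_⟩
        have ha : a ∈ L1 := h1 (by simp)
        exact ⟨algebraMap L1 (LaurentSeries L1) ⟨a, ha⟩,
          (laurentBaseChange L1 F₀).algebraMap_mem _, dsc_cm_algebraMap L1 L ⟨a, ha⟩⟩
      · exact ⟨∅, fun L1 _ => ⟨coeffEmb L1 w, coeffEmb_mem_laurentBaseChange L1 hw,
          dsc_cm_coeffEmb L1 L w⟩⟩
  | one => exact ⟨∅, fun L1 _ => ⟨1, one_mem _, map_one _⟩⟩
  | add x y _ _ hx hy =>
      obtain ⟨s1, h1⟩ := hx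
      obtain ⟨s2, h2⟩ := hy
      refine ⟨s1 ∪ s2, fun L1 hL1 => ?_⟩
      obtain ⟨x1, hx1, rfl⟩ := h1 L1 (fun a ha => hL1 (by simp [Finset.mem_coe.1 ha]))
      obtain ⟨y1, hy1, rfl⟩ := h2 L1 (fun a ha => hL1 (by simp [Finset.mem_coe.1 ha]))
      exact ⟨x1 + y1, add_mem hx1 hy1, map_add _ _ _⟩
  | neg x _ hx =>
      obtain ⟨s1, h1⟩ := hx
      refine ⟨s1, fun L1 hL1 => ?_⟩
      obtain ⟨x1, hx1, rfl⟩ := h1 L1 hL1
      exact ⟨-x1, neg_mem hx1, map_neg _ _⟩
  | inv x _ hx =>
      obtain ⟨s1, h1⟩ := hx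
      refine ⟨s1, fun L1 hL1 => ?_⟩
      obtain ⟨x1, hx1, rfl⟩ := h1 L1 hL1
      exact ⟨x1⁻¹, inv_mem hx1, map_inv₀ _ _⟩
  | mul x y _ _ hx hy =>
      obtain ⟨s1, h1⟩ := hx
      obtain ⟨s2, h2⟩ := hy
      refine ⟨s1 ∪ s2, fun L1 hL1 => ?_⟩
      obtain ⟨x1, hx1, rfl⟩ := h1 L1 (fun a ha => hL1 (by simp [Finset.mem_coe.1 ha]))
      obtain ⟨y1, hy1, rfl⟩ := h2 L1 (fun a ha => hL1 (by simp [Finset.mem_coe.1 ha]))
      exact ⟨x1 * y1, mul_mem hx1 hy1, map_mul _ _ _⟩

end FG

section Integral

variable (L : Type*) [Field L] (A : ValuationSubring L) (L1 : Type*) [Field L1] [Algebra L1 L]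

/-- the inclusion `A ∩ L1 → A` (for an abstract subfield `L1 → L`). -/
noncomputable def dsc_incl : ↥(A.comap (algebraMap L1 L)) →+* ↥A :=
  ((algebraMap L1 L).comp (A.comap (algebraMap L1 L)).subtype).codRestrict A.toSubring
    (fun x => x.2)

@[simp] theorem dsc_incl_coe (x : ↥(A.comap (algebraMap L1 L))) :
    ((dsc_incl L A L1 x : A) : L) = algebraMap L1 L (x : L1) := rfl

theorem dsc_incl_injective : Function.Injective (dsc_incl L A L1) := by
  intro x y hxy
  have := congrArg (fun z : A => (z : L)) hxy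
  exact Subtype.ext ((algebraMap L1 L).injective this)

theorem dsc_subtype_comp_incl :
    A.subtype.comp (dsc_incl L A L1) =
      (algebraMap L1 L).comp (A.comap (algebraMap L1 L)).subtype := rfl

theorem dsc_isUnit_incl_iff (x : ↥(A.comap (algebraMap L1 L))) :
    IsUnit (dsc_incl L A L1 x) ↔ IsUnit x := by
  constructor
  · intro h
    obtain ⟨u, hu⟩ := h.exists_right_inv
    have hmul : algebraMap L1 L (x : L1) * (u : L) = 1 := by
      have : ((dsc_incl L A L1 x * u : A) : L) = 1 := by rw [hu]; rfl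
      rwa [MulMemClass.coe_mul, dsc_incl_coe] at this
    have hx0 : (x : L1) ≠ 0 := by
      rintro h0
      rw [h0, map_zero, zero_mul] at hmul
      exact zero_ne_one hmul
    have hu' : (algebraMap L1 L (x : L1))⁻¹ = (u : L) := inv_eq_of_mul_eq_one_right hmul
    have hmem : (x : L1)⁻¹ ∈ A.comap (algebraMap L1 L) := by
      rw [ValuationSubring.mem_comap, map_inv₀, hu']
      exact u.2
    exact IsUnit.of_mul_eq_one ⟨(x : L1)⁻¹, hmem⟩ (Subtype.ext (mul_inv_cancel₀ hx0))
  · exact fun h => h.map _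

theorem dsc_incl_isLocalHom : IsLocalHom (dsc_incl L A L1) :=
  ⟨fun x hx => (dsc_isUnit_incl_iff L A L1 x).1 hx⟩

theorem dsc_residue_incl_eq_zero_iff (x : ↥(A.comap (algebraMap L1 L))) :
    IsLocalRing.residue A (dsc_incl L A L1 x) = 0 ↔
      IsLocalRing.residue (A.comap (algebraMap L1 L)) x = 0 := by
  rw [IsLocalRing.residue_eq_zero_iff, IsLocalRing.residue_eq_zero_iff,
    IsLocalRing.mem_maximalIdeal, IsLocalRing.mem_maximalIdeal, mem_nonunits_iff,
    mem_nonunits_iff, dsc_isUnit_incl_iff]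

theorem dsc_red_incl_eq_zero_iff (Y : LaurentSeries ↥(A.comap (algebraMap L1 L))) :
    coeffMap (IsLocalRing.residue A) (coeffMap (dsc_incl L A L1) Y) = 0 ↔
      coeffMap (IsLocalRing.residue (A.comap (algebraMap L1 L))) Y = 0 := by
  constructor
  · intro h
    ext k
    have := congrArg (fun z => HahnSeries.coeff z k) h
    simp only [coeffMap_coeff, HahnSeries.coeff_zero] at this
    rw [coeffMap_coeff, HahnSeries.coeff_zero]
    exact (dsc_residue_incl_eq_zero_iff L A L1 _).1 this
  · intro h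
    ext k
    have := congrArg (fun z => HahnSeries.coeff z k) h
    simp only [coeffMap_coeff, HahnSeries.coeff_zero] at this
    rw [coeffMap_coeff, coeffMap_coeff, HahnSeries.coeff_zero]
    exact (dsc_residue_incl_eq_zero_iff L A L1 _).2 this

theorem dsc_red_incl_eq_iff (Y Y' : LaurentSeries ↥(A.comap (algebraMap L1 L))) :
    coeffMap (IsLocalRing.residue A) (coeffMap (dsc_incl L A L1) Y) =
        coeffMap (IsLocalRing.residue A) (coeffMap (dsc_incl L A L1) Y') ↔
      coeffMap (IsLocalRing.residue (A.comap (algebraMap L1 L))) Y =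
        coeffMap (IsLocalRing.residue (A.comap (algebraMap L1 L))) Y' := by
  rw [← sub_eq_zero, ← map_sub, ← map_sub, dsc_red_incl_eq_zero_iff, map_sub, sub_eq_zero]

/-- coefficientwise: a series over `L1` whose image over `L` is `A`-integral is
`A ∩ L1`-integral. -/
theorem dsc_exists_integral (Y : LaurentSeries A) (y1 : LaurentSeries L1)
    (hy : coeffMap (algebraMap L1 L) y1 = coeffMap A.subtype Y) :
    ∃ Y1 : LaurentSeries ↥(A.comap (algebraMap L1 L)),
      coeffMap (A.comap (algebraMap L1 L)).subtype Y1 = y1 ∧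
        coeffMap (dsc_incl L A L1) Y1 = Y := by
  have hcoef : ∀ k, y1.coeff k ∈ Set.range (A.comap (algebraMap L1 L)).subtype := by
    intro k
    have hk : algebraMap L1 L (y1.coeff k) = ((Y.coeff k : A) : L) := by
      have := congrArg (fun z => HahnSeries.coeff z k) hy
      simpa using this
    refine ⟨⟨y1.coeff k, ?_⟩, rfl⟩
    rw [ValuationSubring.mem_comap, hk]
    exact (Y.coeff k).2
  obtain ⟨Y1, hY1⟩ := dsc_exists_coeffMap_eq _ y1 hcoef
  refine ⟨Y1, hY1, ?_⟩
  apply dsc_coeffMap_injective (f := A.subtype) Subtype.val_injective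
  rw [coeffMap_coeffMap, dsc_subtype_comp_incl, ← coeffMap_coeffMap, hY1]
  exact hy

end Integral

section FieldOfDef

variable (L : Type*) [Field L] [Algebra ℚ L] (A : ValuationSubring L)
  (F₀ : IntermediateField ℚ (LaurentSeries ℚ))

/-- **field of definition**: a `q`-integral element of `F_L` is a `q`-integral element of `F_{L1}`
for every subfield `L1` containing finitely many prescribed constants. -/
theorem dsc_fieldOfDef (Y : LaurentSeries A)
    (hY : coeffMap A.subtype Y ∈ laurentBaseChange L F₀) :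
    ∃ s : Finset L, ∀ L1 : IntermediateField ℚ L, (↑s : Set L) ⊆ L1 →
      ∃ Y1 : LaurentSeries ↥(A.comap (algebraMap L1 L)),
        coeffMap (A.comap (algebraMap L1 L)).subtype Y1 ∈ laurentBaseChange L1 F₀ ∧
        coeffMap (dsc_incl L A L1) Y1 = Y := by
  obtain ⟨s, hs⟩ := dsc_bc_exists_fg L F₀ hY
  refine ⟨s, fun L1 hL1 => ?_⟩
  obtain ⟨y1, hy1, hy⟩ := hs L1 hL1
  obtain ⟨Y1, hY1, hY1'⟩ := dsc_exists_integral L A L1 Y y1 hy
  exact ⟨Y1, by rw [hY1]; exact hy1, hY1'⟩

end FieldOfDef

end Fermat.Agent.JT3
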