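/-
JT3 / (F2) DESC, helper12: the bridge `jt_Key A N p  ⟸  KEY over subfields L1 ⊆ Qbar`.

`dsc_KeyAt A N p L1`   : the statement of `jt_Key` over an ABSTRACT constant field `L1 → Qbar`
                          with the valuation ring `A ∩ L1 = A.comap (algebraMap L1 Qbar)`.
`dsc_key_step`          : one subfield over which `y1, y2` are defined suffices.
`dsc_key_of_keyAt`      : `jt_Key` from `dsc_KeyAt` over arbitrarily large `L1`.
`dsc_key_of_numberField`: `jt_Key` from `dsc_KeyAt` over all number fields in `Qbar`.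
-/
import Mathlib
import Fermat.Agent.JT3.S18Key
import Fermat.Agent.JT3.Descent.FieldOfDef

set_option autoImplicit false

noncomputable section

namespace Fermat.Agent.JT3

open ModularCurve AlgebraicCurve HahnSeries

variable (A : ValuationSubring (AlgebraicClosure ℚ)) (N : ℕ)

/-- **KEY over the constant field `L1`** (an ABSTRACT field with a map to `Qbar`) with the
valuation ring `A ∩ L1`: the statement of `jt_Key` with `Qbar` replaced by `L1` and `A` by
`A ∩ L1 := A.comap (algebraMap L1 Qbar)`. -/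
def dsc_KeyAt (p : ℕ) (L1 : Type) [Field L1] [Algebra ℚ L1] [Algebra L1 (AlgebraicClosure ℚ)] :
    Prop :=
  ∀ (y1 y2 : LaurentSeries ↥(A.comap (algebraMap L1 (AlgebraicClosure ℚ))))
    (h1 : coeffMap (A.comap (algebraMap L1 (AlgebraicClosure ℚ))).subtype y1 ∈
      laurentBaseChange L1 (modularFunctionFieldFull N))
    (h2 : coeffMap (A.comap (algebraMap L1 (AlgebraicClosure ℚ))).subtype y2 ∈
      laurentBaseChange L1 (modularFunctionFieldFull N)),
    coeffMap (IsLocalRing.residue ↥(A.comap (algebraMap L1 (AlgebraicClosure ℚ)))) y1 =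
      coeffMap (IsLocalRing.residue ↥(A.comap (algebraMap L1 (AlgebraicClosure ℚ)))) y2 →
    coeffMap (IsLocalRing.residue ↥(A.comap (algebraMap L1 (AlgebraicClosure ℚ)))) y2 ≠ 0 →
    ∀ f : laurentBaseChange L1 (modularFunctionFieldFull N),
      f * (⟨_, h2⟩ : laurentBaseChange L1 (modularFunctionFieldFull N))
        = (⟨_, h1⟩ : laurentBaseChange L1 (modularFunctionFieldFull N)) →
      (∀ Q : Place L1 (laurentBaseChange L1 (modularFunctionFieldFull N)), (p : ℤ) ∣ Q.ord f) →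
      ∃ (c : L1) (g : laurentBaseChange L1 (modularFunctionFieldFull N)),
        f = algebraMap L1 (laurentBaseChange L1 (modularFunctionFieldFull N)) c * g ^ p

variable {A N}

/-- one step of the bridge, for an abstract subfield `L1 → Qbar` over which `y1, y2` are
defined. -/
theorem dsc_key_step {p : ℕ} (L1 : Type) [Field L1] [Algebra ℚ L1]
    [Algebra L1 (AlgebraicClosure ℚ)] [IsScalarTower ℚ L1 (AlgebraicClosure ℚ)]
    [Algebra.IsAlgebraic L1 (AlgebraicClosure ℚ)]
    (hkey : dsc_KeyAt A N p L1)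
    (Y1 Y2 : LaurentSeries ↥(A.comap (algebraMap L1 (AlgebraicClosure ℚ))))
    (hY1 : coeffMap (A.comap (algebraMap L1 (AlgebraicClosure ℚ))).subtype Y1 ∈
      laurentBaseChange L1 (modularFunctionFieldFull N))
    (hY2 : coeffMap (A.comap (algebraMap L1 (AlgebraicClosure ℚ))).subtype Y2 ∈
      laurentBaseChange L1 (modularFunctionFieldFull N))
    (h1 : coeffMap A.subtype (coeffMap (dsc_incl (AlgebraicClosure ℚ) A L1) Y1) ∈
      modularFunctionFieldBar N)
    (h2 : coeffMap A.subtype (coeffMap (dsc_incl (AlgebraicClosure ℚ) A L1) Y2) ∈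
      modularFunctionFieldBar N)
    (hred : coeffMap (IsLocalRing.residue A) (coeffMap (dsc_incl (AlgebraicClosure ℚ) A L1) Y1) =
      coeffMap (IsLocalRing.residue A) (coeffMap (dsc_incl (AlgebraicClosure ℚ) A L1) Y2))
    (hred0 : coeffMap (IsLocalRing.residue A)
      (coeffMap (dsc_incl (AlgebraicClosure ℚ) A L1) Y2) ≠ 0)
    (f : modularFunctionFieldBar N)
    (hf : f * (⟨_, h2⟩ : modularFunctionFieldBar N) = (⟨_, h1⟩ : modularFunctionFieldBar N))
    (hord : ∀ P : Place (AlgebraicClosure ℚ) (modularFunctionFieldBar N), (p : ℤ) ∣ P.ord f) :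
    ∃ (c : AlgebraicClosure ℚ) (g : modularFunctionFieldBar N),
      f = algebraMap (AlgebraicClosure ℚ) (modularFunctionFieldBar N) c * g ^ p := by
  set F0 := laurentBaseChange L1 (modularFunctionFieldFull N) with hF0
  set φ := dsc_bcHom L1 (AlgebraicClosure ℚ) (modularFunctionFieldFull N) with hφ
  have hφ1 : φ ⟨_, hY1⟩ = (⟨_, h1⟩ : modularFunctionFieldBar N) := by
    apply Subtype.ext
    rw [hφ, dsc_bcHom_coe]
    show dsc_cm L1 (AlgebraicClosure ℚ) (coeffMap _ Y1) = coeffMap A.subtype (coeffMap _ Y1)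
    rw [dsc_cm, coeffMap_coeffMap, coeffMap_coeffMap, dsc_subtype_comp_incl]
  have hφ2 : φ ⟨_, hY2⟩ = (⟨_, h2⟩ : modularFunctionFieldBar N) := by
    apply Subtype.ext
    rw [hφ, dsc_bcHom_coe]
    show dsc_cm L1 (AlgebraicClosure ℚ) (coeffMap _ Y2) = coeffMap A.subtype (coeffMap _ Y2)
    rw [dsc_cm, coeffMap_coeffMap, coeffMap_coeffMap, dsc_subtype_comp_incl]
  have hred' := (dsc_red_incl_eq_iff (AlgebraicClosure ℚ) A L1 Y1 Y2).1 hred
  have hred0' : coeffMap (IsLocalRing.residue ↥(A.comap (algebraMap L1 (AlgebraicClosure ℚ)))) Y2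
      ≠ 0 := fun h => hred0 ((dsc_red_incl_eq_zero_iff (AlgebraicClosure ℚ) A L1 Y2).2 h)
  have hY2ne : (⟨_, hY2⟩ : F0) ≠ 0 := by
    intro h
    apply hred0'
    have h' : coeffMap (A.comap (algebraMap L1 (AlgebraicClosure ℚ))).subtype Y2 = 0 :=
      congrArg Subtype.val h
    have h0 : Y2 = 0 := dsc_coeffMap_injective Subtype.val_injective (by rw [h', map_zero])
    rw [h0, map_zero]
  set f0 : F0 := ⟨_, hY1⟩ / ⟨_, hY2⟩ with hf0
  have hff0 : φ f0 = f := by
    have h2ne : (⟨_, h2⟩ : modularFunctionFieldBar N) ≠ 0 := by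
      rw [← hφ2]
      exact (map_ne_zero_iff φ φ.injective).2 hY2ne
    rw [hf0, map_div₀, hφ1, hφ2, ← hf, mul_div_cancel_right₀ _ h2ne]
  have hord0 : ∀ Q : Place L1 F0, (p : ℤ) ∣ Q.ord f0 := by
    intro Q
    apply dsc_bc_dvd_ord L1 (AlgebraicClosure ℚ) (modularFunctionFieldFull N) (p : ℤ) f0 _ Q
    intro P
    rw [← hφ, hff0]
    exact hord P
  obtain ⟨c, g, hcg⟩ := hkey Y1 Y2 hY1 hY2 hred' hred0' f0
    (by rw [hf0]; exact div_mul_cancel₀ _ hY2ne) hord0
  refine ⟨algebraMap L1 (AlgebraicClosure ℚ) c, φ g, ?_⟩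
  rw [← hff0, hcg, map_mul, map_pow, hφ, dsc_bcHom_algebraMap]

/-- **the bridge**: `jt_Key` over `Qbar` follows from KEY over arbitrarily large subfields
`L1 ⊆ Qbar` (e.g. number fields, or finite extensions of a fixed `K ⊆ Qbar`). -/
theorem dsc_key_of_keyAt {p : ℕ}
    (hK : ∀ s : Finset (AlgebraicClosure ℚ), ∃ L1 : IntermediateField ℚ (AlgebraicClosure ℚ),
      (↑s : Set (AlgebraicClosure ℚ)) ⊆ L1 ∧ dsc_KeyAt A N p ↥L1) : jt_Key A N p := by
  classical
  have _ : Algebra.IsAlgebraic ℚ (AlgebraicClosure ℚ) := AlgebraicClosure.isAlgebraic ℚ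
  intro y1 y2 h1 h2 hred hred0 f hf hord
  obtain ⟨s1, hs1⟩ := dsc_fieldOfDef (AlgebraicClosure ℚ) A (modularFunctionFieldFull N) y1 h1
  obtain ⟨s2, hs2⟩ := dsc_fieldOfDef (AlgebraicClosure ℚ) A (modularFunctionFieldFull N) y2 h2
  obtain ⟨L1, hL1, hkey⟩ := hK (s1 ∪ s2)
  obtain ⟨Y1, hY1, rfl⟩ := hs1 L1 (fun a ha => hL1 (by simp [Finset.mem_coe.1 ha]))
  obtain ⟨Y2, hY2, rfl⟩ := hs2 L1 (fun a ha => hL1 (by simp [Finset.mem_coe.1 ha]))
  have _ : Algebra.IsAlgebraic ↥L1 (AlgebraicClosure ℚ) :=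
    Algebra.IsAlgebraic.tower_top (K := ℚ) ↥L1
  exact dsc_key_step ↥L1 hkey Y1 Y2 hY1 hY2 h1 h2 hred hred0 f hf hord

/-- number field form: it suffices to prove KEY over every number field inside `Qbar`. -/
theorem dsc_key_of_numberField {p : ℕ}
    (hK : ∀ L1 : IntermediateField ℚ (AlgebraicClosure ℚ), FiniteDimensional ℚ L1 →
      dsc_KeyAt A N p ↥L1) : jt_Key A N p := by
  have _ : Algebra.IsAlgebraic ℚ (AlgebraicClosure ℚ) := AlgebraicClosure.isAlgebraic ℚ
  apply dsc_key_of_keyAt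
  intro s
  refine ⟨IntermediateField.adjoin ℚ (↑s : Set (AlgebraicClosure ℚ)),
    IntermediateField.subset_adjoin ℚ _, hK _ ?_⟩
  exact IntermediateField.finiteDimensional_adjoin (fun x _ => Algebra.IsIntegral.isIntegral x)

end Fermat.Agent.JT3
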