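/-
JT3 / (F2) DESC, helper12.  Pure algebra core of "constant field extensions are unramified".

`W` a DVR with uniformiser `ϖ`, `V` a local domain, `W → V` a local homomorphism which is
`ϖ`-saturated (`ϖ^k ∣ c` in `V` implies `ϖ^k ∣ c` in `W`), `θ : V` a root of a monic `h : W[X]`
whose reduction is separable.  Then every nonzero element `a(θ)` (`a : W[X]`) of `V` is
`ϖ ^ k * unit`.
-/
import Mathlib

set_option autoImplicit false

namespace Fermat.Agent.JT3

open Polynomial

section Core

variable {W V : Type*} [CommRing W] [IsDomain W] [IsDiscreteValuationRing W]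
  [CommRing V] [IsDomain V] [IsLocalRing V] [Algebra W V]

/-- a polynomial over a DVR whose reduction vanishes is divisible by the uniformiser -/
theorem dsc_exists_eq_C_mul_of_map_eq_zero {ϖ : W} (hϖ : Irreducible ϖ) (a : W[X])
    (ha : a.map (IsLocalRing.residue W) = 0) : ∃ a' : W[X], a = C ϖ * a' := by
  have hmem : ∀ n, a.coeff n ∈ Ideal.span {ϖ} := by
    intro n
    have h1 : (a.map (IsLocalRing.residue W)).coeff n = 0 := by rw [ha, coeff_zero]
    rw [coeff_map, IsLocalRing.residue_eq_zero_iff] at h1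
    rwa [hϖ.maximalIdeal_eq] at h1
  have : C ϖ ∣ a := by
    rw [C_dvd_iff_dvd_coeff]
    intro n
    exact Ideal.mem_span_singleton.1 (hmem n)
  obtain ⟨a', ha'⟩ := this
  exact ⟨a', ha'⟩

omit [IsDomain W] [IsDiscreteValuationRing W] [IsLocalRing V] in
/-- a nonzero integral element is a root of a monic polynomial with nonzero constant term -/
theorem dsc_exists_monic_coeff_zero_ne_zero {y : V} (hy : IsIntegral W y) (hy0 : y ≠ 0) :
    ∃ p : W[X], p.Monic ∧ aeval y p = 0 ∧ algebraMap W V (p.coeff 0) ≠ 0 := by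
  obtain ⟨p, hp, hpy⟩ := hy
  have key : ∀ n : ℕ, ∀ p : W[X], p.natDegree = n → p.Monic → aeval y p = 0 →
      ∃ q : W[X], q.Monic ∧ aeval y q = 0 ∧ algebraMap W V (q.coeff 0) ≠ 0 := by
    intro n
    induction n with
    | zero =>
      intro p hdeg hp hpy
      exfalso
      have : p = 1 := hp.natDegree_eq_zero.1 hdeg
      rw [this, map_one] at hpy
      exact one_ne_zero hpy
    | succ n ih =>
      intro p hdeg hp hpy
      by_cases h0 : algebraMap W V (p.coeff 0) = 0
      · have hdiv : aeval y (divX p) = 0 := by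
          have h1 := congrArg (aeval y) (X_mul_divX_add p)
          rw [map_add, map_mul, aeval_X, aeval_C, h0, add_zero, hpy] at h1
          rcases mul_eq_zero.1 h1 with h | h
          · exact absurd h hy0
          · exact h
        have hmonic : (divX p).Monic := by
          have hpos : p.natDegree ≠ 0 := by rw [hdeg]; exact Nat.succ_ne_zero n
          have hdX : (divX p).natDegree = p.natDegree - 1 := natDegree_divX_eq_natDegree_tsub_one
          rw [Monic, leadingCoeff, hdX, coeff_divX]
          have : p.natDegree - 1 + 1 = p.natDegree := Nat.sub_add_cancel (Nat.pos_of_ne_zero hpos)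
          rw [this]
          exact hp
        refine ih (divX p) ?_ hmonic hdiv
        rw [natDegree_divX_eq_natDegree_tsub_one, hdeg]
        rfl
      · exact ⟨p, hp, hpy, h0⟩
  exact key _ p rfl hp hpy

variable [IsLocalHom (algebraMap W V)]

/-- evaluation at the residue class of `θ`, as a ring homomorphism on polynomials over the
residue field of `W` -/
noncomputable def dsc_evalRes (θ : V) :
    (IsLocalRing.ResidueField W)[X] →+* IsLocalRing.ResidueField V :=
  eval₂RingHom (IsLocalRing.ResidueField.map (algebraMap W V)) (IsLocalRing.residue V θ)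

omit [IsDomain V] in
theorem dsc_evalRes_map (θ : V) (a : W[X]) :
    dsc_evalRes θ (a.map (IsLocalRing.residue W)) = IsLocalRing.residue V (aeval θ a) := by
  rw [dsc_evalRes, coe_eval₂RingHom, eval₂_map, IsLocalRing.ResidueField.map_comp_residue,
    aeval_def, hom_eval₂]

omit [IsDomain V] in
open Classical in
/-- the division step: if `a(θ)` is a non-unit then `a(θ) * unit = ϖ * c(θ)` -/
theorem dsc_step {ϖ : W} (hϖ : Irreducible ϖ) (θ : V) (h : W[X]) (hroot : aeval θ h = 0)
    (hsep : (h.map (IsLocalRing.residue W)).Separable) (a : W[X])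
    (ha : dsc_evalRes θ (a.map (IsLocalRing.residue W)) = 0) :
    ∃ (ρ : Vˣ) (c : W[X]), aeval θ a * ρ = algebraMap W V ϖ * aeval θ c := by
  set abar := a.map (IsLocalRing.residue W) with habar
  set hbar := h.map (IsLocalRing.residue W) with hhbar
  have hE_h : dsc_evalRes θ hbar = 0 := by
    rw [hhbar, dsc_evalRes_map, hroot, map_zero]
  set gbar := EuclideanDomain.gcd abar hbar with hgbar
  have hE_g : dsc_evalRes θ gbar = 0 := by
    rw [hgbar, EuclideanDomain.gcd_eq_gcd_ab, map_add, map_mul, map_mul, ha, hE_h]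
    simp
  obtain ⟨rbar, hr⟩ : gbar ∣ hbar := EuclideanDomain.gcd_dvd_right abar hbar
  obtain ⟨a'bar, ha'⟩ : gbar ∣ abar := EuclideanDomain.gcd_dvd_left abar hbar
  have hcop : IsCoprime gbar rbar := by
    rw [hr] at hsep
    exact hsep.isCoprime
  obtain ⟨u, v, huv⟩ := hcop
  have hE_r : dsc_evalRes θ v * dsc_evalRes θ rbar = 1 := by
    have := congrArg (dsc_evalRes θ) huv
    rwa [map_add, map_mul, map_mul, hE_g, mul_zero, zero_add, map_one] at this
  have hsurj := Polynomial.map_surjective (IsLocalRing.residue W) IsLocalRing.residue_surjective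
  obtain ⟨g, hg⟩ := hsurj gbar
  obtain ⟨r, hrr⟩ := hsurj rbar
  obtain ⟨a', haa'⟩ := hsurj a'bar
  obtain ⟨b, hb⟩ := dsc_exists_eq_C_mul_of_map_eq_zero hϖ (a - g * a') (by
    rw [Polynomial.map_sub, Polynomial.map_mul, hg, haa', ← habar, ha', sub_self])
  obtain ⟨s, hs⟩ := dsc_exists_eq_C_mul_of_map_eq_zero hϖ (h - g * r) (by
    rw [Polynomial.map_sub, Polynomial.map_mul, hg, hrr, ← hhbar, hr, sub_self])
  have hρ : IsUnit (aeval θ r) := by
    by_contra hnu
    have hm : aeval θ r ∈ IsLocalRing.maximalIdeal V := (IsLocalRing.mem_maximalIdeal _).2 hnu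
    have h0 : IsLocalRing.residue V (aeval θ r) = 0 :=
      (IsLocalRing.residue_eq_zero_iff _).2 hm
    rw [← dsc_evalRes_map, hrr] at h0
    rw [h0, mul_zero] at hE_r
    exact zero_ne_one hE_r
  refine ⟨hρ.unit, b * r - s * a', ?_⟩
  have ha_eq : a = g * a' + C ϖ * b := by rw [← hb]; ring
  have hh_eq : g * r = h - C ϖ * s := by rw [← hs]; ring
  have h1 : a * r = h * a' + C ϖ * (b * r - s * a') := by
    rw [ha_eq]
    calc (g * a' + C ϖ * b) * r = (g * r) * a' + C ϖ * (b * r) := by ring
      _ = (h - C ϖ * s) * a' + C ϖ * (b * r) := by rw [hh_eq]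
      _ = h * a' + C ϖ * (b * r - s * a') := by ring
  have h2 := congrArg (aeval θ) h1
  rw [map_mul, map_add, map_mul, map_mul, hroot, zero_mul, zero_add, aeval_C] at h2
  rw [IsUnit.unit_spec]
  exact h2

/-- **Unramified core**: every nonzero `a(θ)` is `ϖ ^ k * unit`. -/
theorem dsc_unram_core {ϖ : W} (hϖ : Irreducible ϖ)
    (hsat : ∀ (c : W) (k : ℕ), algebraMap W V ϖ ^ k ∣ algebraMap W V c → ϖ ^ k ∣ c)
    (θ : V) (h : W[X]) (hmonic : h.Monic) (hroot : aeval θ h = 0)
    (hsep : (h.map (IsLocalRing.residue W)).Separable) (a : W[X]) (ha : aeval θ a ≠ 0) :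
    ∃ (k : ℕ) (u : Vˣ), aeval θ a = algebraMap W V ϖ ^ k * u := by
  -- the induction
  have key : ∀ K : ℕ, ∀ a : W[X], aeval θ a ≠ 0 → ¬ (algebraMap W V ϖ ^ K ∣ aeval θ a) →
      ∃ (k : ℕ) (u : Vˣ), aeval θ a = algebraMap W V ϖ ^ k * u := by
    intro K
    induction K with
    | zero =>
      intro a _ hnd
      exact absurd (by rw [pow_zero]; exact one_dvd _) hnd
    | succ K ih =>
      intro a ha hnd
      by_cases hE : dsc_evalRes θ (a.map (IsLocalRing.residue W)) = 0
      · obtain ⟨ρ, c, hc⟩ := dsc_step hϖ θ h hroot hsep a hE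
        have hc0 : aeval θ c ≠ 0 := by
          intro h0
          rw [h0, mul_zero] at hc
          rcases mul_eq_zero.1 hc with h1 | h1
          · exact ha h1
          · exact ρ.ne_zero h1
        have hcnd : ¬ (algebraMap W V ϖ ^ K ∣ aeval θ c) := by
          rintro ⟨d, hd⟩
          apply hnd
          refine ⟨d * (ρ⁻¹ : Vˣ), ?_⟩
          have : aeval θ a = algebraMap W V ϖ * aeval θ c * (ρ⁻¹ : Vˣ) := by
            rw [← hc, mul_assoc, Units.mul_inv, mul_one]
          rw [this, hd, pow_succ]
          ring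
        obtain ⟨k, u, hku⟩ := ih c hc0 hcnd
        refine ⟨k + 1, u * ρ⁻¹, ?_⟩
        have : aeval θ a = algebraMap W V ϖ * aeval θ c * (ρ⁻¹ : Vˣ) := by
          rw [← hc, mul_assoc, Units.mul_inv, mul_one]
        rw [this, hku, pow_succ, Units.val_mul]
        ring
      · refine ⟨0, ?_⟩
        rw [dsc_evalRes_map] at hE
        have hu : IsUnit (aeval θ a) := by
          by_contra hnu
          exact hE ((IsLocalRing.residue_eq_zero_iff _).2 ((IsLocalRing.mem_maximalIdeal _).2 hnu))
        exact ⟨hu.unit, by rw [pow_zero, one_mul, IsUnit.unit_spec]⟩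
  -- the bound
  have hθint : IsIntegral W θ := ⟨h, hmonic, by rw [← aeval_def]; exact hroot⟩
  have hyint : IsIntegral W (aeval θ a) := by
    have hle : Algebra.adjoin W {θ} ≤ integralClosure W V :=
      Algebra.adjoin_le (by
        intro x hx
        rw [Set.mem_singleton_iff] at hx
        rw [hx]
        exact hθint)
    exact hle (aeval_mem_adjoin_singleton W θ)
  obtain ⟨p, hp, hpy, hp0⟩ := dsc_exists_monic_coeff_zero_ne_zero hyint ha
  have hc0 : p.coeff 0 ≠ 0 := fun h0 => hp0 (by rw [h0, map_zero])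
  have hfin : FiniteMultiplicity ϖ (p.coeff 0) :=
    FiniteMultiplicity.of_not_isUnit hϖ.not_isUnit hc0
  obtain ⟨n, hn⟩ := FiniteMultiplicity.def.1 hfin
  refine key (n + 1) a ha ?_
  intro hdvd
  apply hn
  apply hsat
  have h1 := congrArg (aeval (aeval θ a)) (X_mul_divX_add p)
  rw [map_add, map_mul, aeval_X, aeval_C, hpy] at h1
  have h2 : algebraMap W V (p.coeff 0) = -(aeval θ a * aeval (aeval θ a) (divX p)) := by
    rw [eq_neg_iff_add_eq_zero, add_comm]; exact h1
  rw [h2]
  exact (Dvd.dvd.mul_right hdvd _).neg_right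

end Core

end Fermat.Agent.JT3
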